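/-
GATE-L-S58 / GE/E3 places (helper95).  ABSTRACT places of the function field of a Weierstrass curve.

Setting: `k` a field, `W : WeierstrassCurve.Affine k`, `K` ANY field with `[Algebra k K]` and
`t y : K` with `hE : (W⁄K).Equation t y`, `ht : Transcendental k t` (so `K ⊇ k(t, y) = k(W)`;
works for `K = AdjoinRoot` over `RatFunc k`, for Mathlib's `W.FunctionField`, ...).

* `coordHom W t y hE : W.CoordinateRing →ₐ[k] K` (`X ↦ t`, `Y ↦ y`), `coordHom_injective`.
* `evalAt W h : W.CoordinateRing →+* k` evaluation at a `k`-point `(c, y1)`.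
* `exists_place_affine` : a valuation subring `A` of `K` containing the image of the coordinate
  ring such that `coordHom z - evalAt z ∈ A.nonunits` for all `z` (+ corollaries `IsPlaceAt.*`).
* `exists_place_infty` : a valuation subring `A ⊇ k` with `t ∉ A`; there
  `v(y)^2 = v(t)^3`, `y ∉ A`, `t / y ∈ A.nonunits`, `v(t/y)^2 = v(1/t)`.
* rational functions at a place: `valuation_aeval` (`v(p(t)) = v(t-c)^(rootMultiplicity c p)`),
  `valuation_aeval_eq_one`, `valuation_aeval_infty` (`v(p(t)) = v(t)^natDegree p`),
  `rootMultiplicity_eq_of_valuation_eq`.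
-/
import Mathlib

set_option autoImplicit false

open Polynomial
open scoped Polynomial.Bivariate

namespace Fermat.Agent.GE.FF.PlacesAbs

open WeierstrassCurve WeierstrassCurve.Affine

variable {k : Type*} [Field k] {K : Type*} [Field K] [Algebra k K]

/-! ### Chevalley extension in the form we need -/

/-- Chevalley: an injective ring hom `f : R → K` and a proper ideal `J` of `R` give a valuation
subring containing `f R` in which `f J` consists of nonunits. -/
theorem exists_valuationSubring_of_injective {R : Type*} [CommRing R] (f : R →+* K)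
    (hf : Function.Injective f) (J : Ideal R) (hJ : J ≠ ⊤) :
    ∃ B : ValuationSubring K, (∀ r : R, f r ∈ B) ∧ ∀ r ∈ J, f r ∈ B.nonunits := by
  classical
  set I : Ideal f.range := Ideal.map f.rangeRestrict J with hI
  have hsurj : Function.Surjective f.rangeRestrict := f.rangeRestrict_surjective
  have hItop : I ≠ ⊤ := by
    intro htop
    have h1 : (1 : f.range) ∈ I := by rw [htop]; trivial
    rw [hI, Ideal.mem_map_iff_of_surjective _ hsurj] at h1
    obtain ⟨z, hz, hz1⟩ := h1
    have hz1' : f z = 1 := by
      have := congrArg (Subtype.val) hz1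
      simpa using this
    have : z = 1 := hf (by rw [hz1', map_one])
    rw [this] at hz
    exact hJ ((Ideal.eq_top_iff_one J).mpr hz)
  obtain ⟨B, hAB, hIB⟩ := Ideal.image_subset_nonunits_valuationSubring I hItop
  refine ⟨B, fun r => hAB ⟨r, rfl⟩, fun r hr => ?_⟩
  apply hIB
  exact ⟨f.rangeRestrict r, Ideal.mem_map_of_mem _ hr, rfl⟩

/-! ### Valuation lemmas for polynomials in `t` -/

section ValLemmas

variable (A : ValuationSubring K)

/-- nonzero constants are units of a valuation subring containing the constants -/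
lemma valuation_algebraMap_eq_one (hk : ∀ a : k, algebraMap k K a ∈ A) {a : k} (ha : a ≠ 0) :
    A.valuation (algebraMap k K a) = 1 := by
  have h1 : A.valuation (algebraMap k K a) ≤ 1 := (A.valuation_le_one_iff _).mpr (hk a)
  have h2 : A.valuation (algebraMap k K a⁻¹) ≤ 1 := (A.valuation_le_one_iff _).mpr (hk a⁻¹)
  have h3 : A.valuation (algebraMap k K a) * A.valuation (algebraMap k K a⁻¹) = 1 := by
    rw [← map_mul, ← map_mul, mul_inv_cancel₀ ha, map_one, map_one]
  refine le_antisymm h1 ?_
  by_contra hlt
  rw [not_le] at hlt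
  have : A.valuation (algebraMap k K a) * A.valuation (algebraMap k K a⁻¹) < 1 := by
    calc _ ≤ A.valuation (algebraMap k K a) * 1 := by gcongr
      _ = A.valuation (algebraMap k K a) := mul_one _
      _ < 1 := hlt
  rw [h3] at this
  exact lt_irrefl _ this

lemma aeval_mem (hk : ∀ a : k, algebraMap k K a ∈ A) {t : K} (ht : t ∈ A) (p : k[X]) :
    aeval t p ∈ A := by
  induction p using Polynomial.induction_on with
  | C a => simpa using hk a
  | add p q hp hq => rw [map_add]; exact A.add_mem _ _ hp hq
  | monomial n a ih =>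
    rw [pow_succ, ← mul_assoc, map_mul, aeval_X]
    exact A.mul_mem _ _ ih ht

/-- a polynomial not vanishing at `c` gives a unit at a place where `t ≡ c` -/
lemma valuation_aeval_eq_one (hk : ∀ a : k, algebraMap k K a ∈ A) {t : K} {c : k} (ht : t ∈ A)
    (htc : t - algebraMap k K c ∈ A.nonunits) (g : k[X]) (hg : g.eval c ≠ 0) :
    A.valuation (aeval t g) = 1 := by
  have hdvd : (X - C c) ∣ g - C (g.eval c) := by
    rw [Polynomial.dvd_iff_isRoot]; simp
  obtain ⟨h, hh⟩ := hdvd
  have hg' : g = C (g.eval c) + (X - C c) * h := by rw [← hh]; ring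
  have h1 : aeval t g = algebraMap k K (g.eval c) + (t - algebraMap k K c) * aeval t h := by
    conv_lhs => rw [hg']
    simp
  rw [h1]
  have hlt : A.valuation ((t - algebraMap k K c) * aeval t h) < 1 := by
    rw [map_mul]
    have h2 : A.valuation (aeval t h) ≤ 1 := (A.valuation_le_one_iff _).mpr (aeval_mem A hk ht h)
    have h3 : A.valuation (t - algebraMap k K c) < 1 := A.mem_nonunits_iff.mp htc
    calc _ ≤ A.valuation (t - algebraMap k K c) * 1 := by gcongr
      _ = _ := mul_one _
      _ < 1 := h3
  have h1' := valuation_algebraMap_eq_one A hk hg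
  rw [Valuation.map_add_eq_of_lt_left, h1']
  rw [h1']; exact hlt

/-- a polynomial vanishing at `c` gives a nonunit at a place where `t ≡ c` -/
lemma aeval_mem_nonunits (hk : ∀ a : k, algebraMap k K a ∈ A) {t : K} {c : k} (ht : t ∈ A)
    (htc : t - algebraMap k K c ∈ A.nonunits) (g : k[X]) (hg : g.eval c = 0) :
    aeval t g ∈ A.nonunits := by
  obtain ⟨h, hh⟩ := Polynomial.dvd_iff_isRoot.mpr hg
  rw [hh, map_mul, A.mem_nonunits_iff, map_mul]
  have h2 : A.valuation (aeval t h) ≤ 1 := (A.valuation_le_one_iff _).mpr (aeval_mem A hk ht h)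
  have h3 : A.valuation (aeval t (X - C c)) < 1 := by
    have : aeval t (X - C c) = t - algebraMap k K c := by simp
    rw [this]; exact A.mem_nonunits_iff.mp htc
  calc _ ≤ A.valuation (aeval t (X - C c)) * 1 := by gcongr
    _ = _ := mul_one _
    _ < 1 := h3

/-- the residue of `p(t)` at a place where `t ≡ c` is `p(c)` -/
lemma aeval_sub_eval_mem_nonunits (hk : ∀ a : k, algebraMap k K a ∈ A) {t : K} {c : k}
    (ht : t ∈ A) (htc : t - algebraMap k K c ∈ A.nonunits) (g : k[X]) :
    aeval t g - algebraMap k K (g.eval c) ∈ A.nonunits := by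
  have := aeval_mem_nonunits A hk ht htc (g - C (g.eval c)) (by simp)
  simpa using this

/-- the valuation of a polynomial in `t` at a place where `t ≡ c` -/
lemma valuation_aeval (hk : ∀ a : k, algebraMap k K a ∈ A) {t : K} {c : k} (ht : t ∈ A)
    (htc : t - algebraMap k K c ∈ A.nonunits) (p : k[X]) (hp : p ≠ 0) :
    A.valuation (aeval t p) = A.valuation (t - algebraMap k K c) ^ p.rootMultiplicity c := by
  obtain ⟨q, hq, hndvd⟩ := Polynomial.exists_eq_pow_rootMultiplicity_mul_and_not_dvd p hp c
  have hqc : q.eval c ≠ 0 := by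
    intro h0
    exact hndvd (Polynomial.dvd_iff_isRoot.mpr h0)
  conv_lhs => rw [hq]
  rw [map_mul, map_pow, map_mul, map_pow, valuation_aeval_eq_one A hk ht htc q hqc, mul_one]
  simp

/-- powers of a nonzero nonunit have pairwise distinct valuations -/
lemma pow_injective_of_mem_nonunits {π : K} (hπ : π ∈ A.nonunits) (hπ0 : π ≠ 0) {a b : ℕ}
    (h : A.valuation π ^ a = A.valuation π ^ b) : a = b := by
  have hlt : A.valuation π < 1 := A.mem_nonunits_iff.mp hπ
  have hpos : 0 < A.valuation π := by
    rw [zero_lt_iff, Ne, Valuation.zero_iff]; exact hπ0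
  rcases lt_trichotomy a b with hab | hab | hab
  · exact absurd h (ne_of_gt (pow_lt_pow_right_of_lt_one₀ hpos hlt hab))
  · exact hab
  · exact absurd h (ne_of_lt (pow_lt_pow_right_of_lt_one₀ hpos hlt hab))

/-- comparing orders of vanishing: if `(t-c)^a p(t) / q(t)` and `(t-c)^b` have the same valuation
then `a + ord_c p = b + ord_c q`. -/
theorem rootMultiplicity_eq_of_valuation_eq (hk : ∀ a : k, algebraMap k K a ∈ A) {t : K} {c : k}
    (ht : t ∈ A) (htc : t - algebraMap k K c ∈ A.nonunits) (htc0 : t - algebraMap k K c ≠ 0)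
    (p q : k[X]) (hp : p ≠ 0) (hq : q ≠ 0) (a b : ℕ)
    (h : A.valuation ((t - algebraMap k K c) ^ a * aeval t p) =
      A.valuation ((t - algebraMap k K c) ^ b * aeval t q)) :
    a + p.rootMultiplicity c = b + q.rootMultiplicity c := by
  rw [map_mul, map_mul, map_pow, map_pow, valuation_aeval A hk ht htc p hp,
    valuation_aeval A hk ht htc q hq, ← pow_add, ← pow_add] at h
  exact pow_injective_of_mem_nonunits A htc htc0 h

lemma inv_mem_nonunits_of_not_mem {t : K} (ht : t ∉ A) : t⁻¹ ∈ A.nonunits :=
  A.inv_mem_nonunits_iff.mpr (Or.inr ht)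

lemma ne_zero_of_not_mem {t : K} (ht : t ∉ A) : t ≠ 0 := by
  rintro rfl; exact ht A.zero_mem

lemma one_lt_valuation_of_not_mem {t : K} (ht : t ∉ A) : 1 < A.valuation t := by
  rw [← not_le, A.valuation_le_one_iff]; exact ht

/-- the valuation of a polynomial in `t` at a place where `t` has a pole -/
lemma valuation_aeval_infty (hk : ∀ a : k, algebraMap k K a ∈ A) {t : K} (ht : t ∉ A)
    (p : k[X]) (hp : p ≠ 0) :
    A.valuation (aeval t p) = A.valuation t ^ p.natDegree := by
  have ht0 : t ≠ 0 := ne_zero_of_not_mem A ht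
  let _ : Invertible t := invertibleOfNonzero ht0
  have hinv : ⅟t = t⁻¹ := invOf_eq_inv t
  have h1 := Polynomial.eval₂_reverse_mul_pow (algebraMap k K) t p
  rw [hinv] at h1
  have h2 : aeval t p = aeval t⁻¹ p.reverse * t ^ p.natDegree := by
    rw [aeval_def, aeval_def, h1]
  rw [h2, map_mul, map_pow]
  have hs : t⁻¹ ∈ A.nonunits := inv_mem_nonunits_of_not_mem A ht
  have hsA : t⁻¹ ∈ A := A.nonunits_subset hs
  have h3 : A.valuation (aeval t⁻¹ p.reverse) = 1 := by
    apply valuation_aeval_eq_one A hk hsA (c := 0)
    · simpa using hs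
    · rw [← Polynomial.coeff_zero_eq_eval_zero, Polynomial.coeff_zero_reverse]
      exact leadingCoeff_ne_zero.mpr hp
  rw [h3, one_mul]

/-- comparing degrees at a pole of `t`: if `t^a u(t)` and `t^b v(t)` have the same valuation then
`a + deg u = b + deg v`. -/
theorem natDegree_eq_of_valuation_eq (hk : ∀ a : k, algebraMap k K a ∈ A) {t : K} (ht : t ∉ A)
    (p q : k[X]) (hp : p ≠ 0) (hq : q ≠ 0) (a b : ℕ)
    (h : A.valuation (t ^ a * aeval t p) = A.valuation (t ^ b * aeval t q)) :
    a + p.natDegree = b + q.natDegree := by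
  rw [map_mul, map_mul, map_pow, map_pow, valuation_aeval_infty A hk ht p hp,
    valuation_aeval_infty A hk ht q hq, ← pow_add, ← pow_add] at h
  have hT : 1 < A.valuation t := one_lt_valuation_of_not_mem A ht
  rcases lt_trichotomy (a + p.natDegree) (b + q.natDegree) with hab | hab | hab
  · exact absurd h (ne_of_lt (pow_lt_pow_right₀ hT hab))
  · exact hab
  · exact absurd h (ne_of_gt (pow_lt_pow_right₀ hT hab))

/-- consumer form: if `x = u(t)/v(t)` and `x / t` is a unit at a pole of `t`, then
`deg u = deg v + 1`. -/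
theorem natDegree_eq_add_one_of_unit (hk : ∀ a : k, algebraMap k K a ∈ A) {t : K} (ht : t ∉ A)
    (u v : k[X]) (hu : u ≠ 0) (hv : v ≠ 0) (htr : aeval t v ≠ 0)
    (h : A.valuation (aeval t u / aeval t v / t) = 1) :
    u.natDegree = v.natDegree + 1 := by
  have ht0 : t ≠ 0 := ne_zero_of_not_mem A ht
  have h1 : A.valuation (t ^ 0 * aeval t u) = A.valuation (t ^ 1 * aeval t v) := by
    have h2 : aeval t u = (aeval t u / aeval t v / t) * (t ^ 1 * aeval t v) := by
      field_simp
    rw [pow_zero, one_mul]
    conv_lhs => rw [h2]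
    rw [map_mul, h, one_mul]
  have := natDegree_eq_of_valuation_eq A hk ht u v hu hv 0 1 h1
  omega

end ValLemmas

/-! ### The coordinate ring inside `K` -/

variable (W : WeierstrassCurve.Affine k)

/-- The Weierstrass polynomial evaluated at a point of the base-changed curve. -/
lemma eval₂_aeval_polynomial (t y : K) (hE : (W⁄K).Equation t y) :
    W.polynomial.eval₂ ((Polynomial.aeval t : k[X] →ₐ[k] K) : k[X] →+* K) y = 0 := by
  have h1 : ((Polynomial.aeval t : k[X] →ₐ[k] K) : k[X] →+* K) =
      Polynomial.eval₂RingHom (algebraMap k K) t := by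
    ext <;> simp
  rw [h1, Polynomial.eval₂_eval₂RingHom_apply]
  have h2 : (W⁄K).polynomial = W.polynomial.map (mapRingHom (algebraMap k K)) :=
    map_polynomial W (algebraMap k K)
  rw [← h2]
  exact hE

/-- the `k`-algebra hom from the coordinate ring to `K` given by a `K`-point of the curve -/
noncomputable def coordHom (t y : K) (hE : (W⁄K).Equation t y) : W.CoordinateRing →ₐ[k] K :=
  AdjoinRoot.liftAlgHom W.polynomial (Polynomial.aeval t) y (eval₂_aeval_polynomial W t y hE)

@[simp] lemma coordHom_algebraMap (t y : K) (hE : (W⁄K).Equation t y) (p : k[X]) :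
    coordHom W t y hE (algebraMap k[X] W.CoordinateRing p) = Polynomial.aeval t p := by
  simp [coordHom]

@[simp] lemma coordHom_mk_Y (t y : K) (hE : (W⁄K).Equation t y) :
    coordHom W t y hE (CoordinateRing.mk W Y) = y := by
  simp [coordHom]

@[simp] lemma coordHom_mk_C (t y : K) (hE : (W⁄K).Equation t y) (p : k[X]) :
    coordHom W t y hE (CoordinateRing.mk W (C p)) = Polynomial.aeval t p :=
  coordHom_algebraMap W t y hE p

lemma coordHom_injective (t y : K) (hE : (W⁄K).Equation t y) (ht : Transcendental k t) :
    Function.Injective (coordHom W t y hE) := by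
  rw [injective_iff_map_eq_zero]
  intro z hz
  have hN : Polynomial.aeval t (Algebra.norm k[X] z) = 0 := by
    rw [← coordHom_algebraMap W t y hE]
    obtain ⟨p, q, rfl⟩ := CoordinateRing.exists_smul_basis_eq z
    have h1 := CoordinateRing.coe_norm_smul_basis (W' := W) p q
    have h2 : algebraMap k[X] W.CoordinateRing
        (Algebra.norm k[X] (p • (1 : W.CoordinateRing) + q • CoordinateRing.mk W Y)) =
        (Algebra.norm k[X] (p • (1 : W.CoordinateRing) + q • CoordinateRing.mk W Y) :
          W.CoordinateRing) := rfl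
    rw [h2, h1, map_mul, map_mul]
    have : (CoordinateRing.mk W) (C p + C q * Y) =
        p • (1 : W.CoordinateRing) + q • CoordinateRing.mk W Y := by
      simp [CoordinateRing.smul, map_add, map_mul]
    rw [this, hz, zero_mul]
  have hN0 : Algebra.norm k[X] z = 0 := by
    by_contra h
    exact ht ⟨_, h, hN⟩
  have : Module.Finite k[X] W.CoordinateRing := Module.Finite.of_basis (CoordinateRing.basis W)
  exact Algebra.norm_eq_zero_iff.mp hN0

/-! ### Evaluation at a rational point -/

/-- evaluation of the coordinate ring at a `k`-point of the curve -/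
noncomputable def evalAt {c y1 : k} (h : W.Equation c y1) : W.CoordinateRing →+* k :=
  AdjoinRoot.evalEval (p := W.polynomial) (x := c) (y := y1) h

@[simp] lemma evalAt_mk {c y1 : k} (h : W.Equation c y1) (g : k[X][Y]) :
    evalAt W h (CoordinateRing.mk W g) = g.evalEval c y1 :=
  AdjoinRoot.evalEval_mk h g

@[simp] lemma evalAt_algebraMap {c y1 : k} (h : W.Equation c y1) (a : k) :
    evalAt W h (algebraMap k W.CoordinateRing a) = a := by
  have : algebraMap k W.CoordinateRing a = CoordinateRing.mk W (C (C a)) := rfl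
  rw [this, evalAt_mk]
  exact evalEval_CC c y1 a

@[simp] lemma evalAt_algebraMap_poly {c y1 : k} (h : W.Equation c y1) (p : k[X]) :
    evalAt W h (algebraMap k[X] W.CoordinateRing p) = p.eval c := by
  have : algebraMap k[X] W.CoordinateRing p = CoordinateRing.mk W (C p) := rfl
  rw [this, evalAt_mk]
  exact evalEval_C c y1 p

@[simp] lemma evalAt_mk_Y {c y1 : k} (h : W.Equation c y1) :
    evalAt W h (CoordinateRing.mk W Y) = y1 := by
  rw [evalAt_mk]
  exact evalEval_X c y1

lemma evalAt_sub_mem_ker {c y1 : k} (h : W.Equation c y1) (z : W.CoordinateRing) :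
    z - algebraMap k W.CoordinateRing (evalAt W h z) ∈ RingHom.ker (evalAt W h) := by
  rw [RingHom.mem_ker, map_sub, evalAt_algebraMap, sub_self]

/-! ### Affine places -/

/-- `A` is a place of `K` over the `k`-point `(c, y1)`: it contains the coordinate ring and every
element of the coordinate ring reduces to its value at the point. -/
structure IsPlaceAt (A : ValuationSubring K) (t y : K) (hE : (W⁄K).Equation t y) {c y1 : k}
    (h : W.Equation c y1) : Prop where
  mem : ∀ z : W.CoordinateRing, coordHom W t y hE z ∈ A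
  red : ∀ z : W.CoordinateRing,
    coordHom W t y hE z - algebraMap k K (evalAt W h z) ∈ A.nonunits

/-- **Place at an affine point**: a valuation subring of `K` containing the image of the coordinate
ring, in which every element of the coordinate ring reduces to its value at the point. -/
theorem exists_place_affine (t y : K) (hE : (W⁄K).Equation t y) (ht : Transcendental k t)
    {c y1 : k} (h : W.Equation c y1) :
    ∃ A : ValuationSubring K, IsPlaceAt W A t y hE h := by
  have hinj : Function.Injective ((coordHom W t y hE : W.CoordinateRing →ₐ[k] K) :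
      W.CoordinateRing →+* K) := coordHom_injective W t y hE ht
  have hJ : RingHom.ker (evalAt W h) ≠ ⊤ := by
    rw [Ne, Ideal.eq_top_iff_one, RingHom.mem_ker, map_one]
    exact one_ne_zero
  obtain ⟨B, hB1, hB2⟩ := exists_valuationSubring_of_injective _ hinj _ hJ
  refine ⟨B, ⟨fun z => hB1 z, fun z => ?_⟩⟩
  have := hB2 _ (evalAt_sub_mem_ker W h z)
  rw [map_sub] at this
  have hc : ((coordHom W t y hE : W.CoordinateRing →ₐ[k] K) : W.CoordinateRing →+* K)
      (algebraMap k W.CoordinateRing (evalAt W h z)) = algebraMap k K (evalAt W h z) :=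
    (coordHom W t y hE).commutes _
  rw [hc] at this
  exact this

namespace IsPlaceAt

variable {W} {A : ValuationSubring K} {t y : K} {hE : (W⁄K).Equation t y} {c y1 : k}
  {h : W.Equation c y1} (hA : IsPlaceAt W A t y hE h)

include hA

lemma algebraMap_mem (a : k) : algebraMap k K a ∈ A := by
  have := hA.mem (algebraMap k W.CoordinateRing a)
  rwa [(coordHom W t y hE).commutes] at this

lemma t_mem : t ∈ A := by
  have := hA.mem (algebraMap k[X] W.CoordinateRing X)
  rwa [coordHom_algebraMap, aeval_X] at this

lemma y_mem : y ∈ A := by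
  have := hA.mem (CoordinateRing.mk W Y)
  rwa [coordHom_mk_Y] at this

lemma t_sub_mem_nonunits : t - algebraMap k K c ∈ A.nonunits := by
  have := hA.red (algebraMap k[X] W.CoordinateRing X)
  rwa [coordHom_algebraMap, aeval_X, evalAt_algebraMap_poly, eval_X] at this

lemma y_sub_mem_nonunits : y - algebraMap k K y1 ∈ A.nonunits := by
  have := hA.red (CoordinateRing.mk W Y)
  rwa [coordHom_mk_Y, evalAt_mk_Y] at this

/-- an element of the coordinate ring not vanishing at the point is a unit at the place -/
lemma valuation_eq_one (z : W.CoordinateRing) (hz : evalAt W h z ≠ 0) :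
    A.valuation (coordHom W t y hE z) = 1 := by
  have h1 := A.mem_nonunits_iff.mp (hA.red z)
  have h2 := valuation_algebraMap_eq_one A hA.algebraMap_mem hz
  have h3 : coordHom W t y hE z = algebraMap k K (evalAt W h z) +
      (coordHom W t y hE z - algebraMap k K (evalAt W h z)) := by ring
  rw [h3, Valuation.map_add_eq_of_lt_left, h2]
  rw [h2]; exact h1

/-- an element of the coordinate ring vanishing at the point is a nonunit at the place -/
lemma mem_nonunits (z : W.CoordinateRing) (hz : evalAt W h z = 0) :
    coordHom W t y hE z ∈ A.nonunits := by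
  have := hA.red z
  rwa [hz, map_zero, sub_zero] at this

end IsPlaceAt

/-! ### The place at infinity -/

/-- **Place at infinity** of `k(t)`, extended to `K`. -/
theorem exists_place_infty (t : K) (ht : Transcendental k t) :
    ∃ A : ValuationSubring K, (∀ a : k, algebraMap k K a ∈ A) ∧ t ∉ A := by
  have hs : Transcendental k t⁻¹ := by
    intro h
    exact ht (by simpa using h.inv)
  have hinj : Function.Injective ((aeval t⁻¹ : k[X] →ₐ[k] K) : k[X] →+* K) :=
    transcendental_iff_injective.mp hs
  have hJ : RingHom.ker (Polynomial.evalRingHom (0 : k)) ≠ ⊤ := by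
    rw [Ne, Ideal.eq_top_iff_one, RingHom.mem_ker]
    simp
  obtain ⟨B, hB1, hB2⟩ := exists_valuationSubring_of_injective _ hinj _ hJ
  refine ⟨B, fun a => ?_, ?_⟩
  · simpa using hB1 (C a)
  · have hX : (X : k[X]) ∈ RingHom.ker (Polynomial.evalRingHom (0 : k)) := by
      rw [RingHom.mem_ker]; simp
    have := hB2 X hX
    simp only [RingHom.coe_coe, aeval_X] at this
    rw [B.mem_nonunits_iff_or] at this
    rcases this with h | h
    · exfalso
      have h0 : t = 0 := inv_eq_zero.mp h
      exact ht (h0 ▸ isAlgebraic_zero)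
    · simpa using h

section Infty

variable (A : ValuationSubring K) (hk : ∀ a : k, algebraMap k K a ∈ A) {t y : K}
  (hE : (W⁄K).Equation t y) (ht : t ∉ A)

include hk hE ht

/-- `2 v(y) = 3 v(t)` at a pole of `t` -/
theorem valuation_y_sq_eq : A.valuation y ^ 2 = A.valuation t ^ 3 := by
  have hT : 1 < A.valuation t := one_lt_valuation_of_not_mem A ht
  have hT0 : 0 < A.valuation t := lt_trans zero_lt_one hT
  rw [Affine.equation_iff] at hE
  simp only [baseChange_a₁, baseChange_a₂, baseChange_a₃, baseChange_a₄, baseChange_a₆] at hE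
  set p : k[X] := X ^ 3 + C W.a₂ * X ^ 2 + C W.a₄ * X + C W.a₆ with hp
  have hpdeg : p.natDegree = 3 := by
    rw [hp]; compute_degree!
  have hp0 : p ≠ 0 := by
    intro h; rw [h] at hpdeg; simp at hpdeg
  have hRHS : A.valuation (t ^ 3 + algebraMap k K W.a₂ * t ^ 2 + algebraMap k K W.a₄ * t +
      algebraMap k K W.a₆) = A.valuation t ^ 3 := by
    have := valuation_aeval_infty A hk ht p hp0
    rw [hpdeg] at this
    rw [← this, hp]
    simp
  have hle : ∀ a : k, A.valuation (algebraMap k K a) ≤ 1 :=
    fun a => (A.valuation_le_one_iff _).mpr (hk a)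
  have hlin : A.valuation (algebraMap k K W.a₁ * t + algebraMap k K W.a₃) ≤ A.valuation t := by
    refine le_trans (Valuation.map_add _ _ _) (max_le ?_ ?_)
    · rw [map_mul]
      calc A.valuation (algebraMap k K W.a₁) * A.valuation t ≤ 1 * A.valuation t := by
            gcongr; exact hle _
        _ = A.valuation t := one_mul _
    · exact le_trans (hle _) hT.le
  have hLHS : y ^ 2 + algebraMap k K W.a₁ * t * y + algebraMap k K W.a₃ * y =
      y * (y + (algebraMap k K W.a₁ * t + algebraMap k K W.a₃)) := by ring
  rw [hLHS] at hE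
  have hvE : A.valuation y * A.valuation (y + (algebraMap k K W.a₁ * t + algebraMap k K W.a₃)) =
      A.valuation t ^ 3 := by
    rw [← map_mul, hE, hRHS]
  by_cases hY : A.valuation y ≤ A.valuation t
  · exfalso
    have h1 : A.valuation (y + (algebraMap k K W.a₁ * t + algebraMap k K W.a₃)) ≤ A.valuation t :=
      le_trans (Valuation.map_add _ _ _) (max_le hY hlin)
    have h2 : A.valuation t ^ 3 ≤ A.valuation t * A.valuation t := by
      rw [← hvE]; exact mul_le_mul' hY h1
    have h3 : A.valuation t * A.valuation t < A.valuation t ^ 3 := by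
      have : A.valuation t ^ 3 = A.valuation t * A.valuation t * A.valuation t := by
        rw [pow_succ, pow_two]
      rw [this]
      calc A.valuation t * A.valuation t = A.valuation t * A.valuation t * 1 := (mul_one _).symm
        _ < A.valuation t * A.valuation t * A.valuation t := by
          apply mul_lt_mul_of_pos_left hT
          exact mul_pos hT0 hT0
    exact absurd h2 (not_le.mpr h3)
  · rw [not_le] at hY
    have h1 : A.valuation (y + (algebraMap k K W.a₁ * t + algebraMap k K W.a₃)) = A.valuation y :=
      Valuation.map_add_eq_of_lt_left _ (lt_of_le_of_lt hlin hY)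
    rw [h1] at hvE
    rw [← hvE, pow_two]

theorem valuation_t_lt_valuation_y : A.valuation t < A.valuation y := by
  by_contra h
  rw [not_lt] at h
  have hT : 1 < A.valuation t := one_lt_valuation_of_not_mem A ht
  have h2 := valuation_y_sq_eq W A hk hE ht
  have h3 : A.valuation y ^ 2 ≤ A.valuation t ^ 2 := by gcongr
  have h4 : A.valuation t ^ 2 < A.valuation t ^ 3 := by
    apply pow_lt_pow_right₀ hT (by norm_num)
  rw [h2] at h3
  exact absurd h3 (not_le.mpr h4)

theorem y_not_mem : y ∉ A := by
  intro hy
  have h1 : A.valuation y ≤ 1 := (A.valuation_le_one_iff _).mpr hy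
  have hT : 1 < A.valuation t := one_lt_valuation_of_not_mem A ht
  have h2 := valuation_t_lt_valuation_y W A hk hE ht
  exact absurd (lt_trans hT h2) (not_lt.mpr h1)

theorem t_div_y_mem_nonunits : t / y ∈ A.nonunits := by
  rw [A.mem_nonunits_iff, map_div₀]
  have h := valuation_t_lt_valuation_y W A hk hE ht
  have hy0 : 0 < A.valuation y := lt_of_le_of_lt zero_le h
  rw [div_lt_one₀ hy0]
  exact h

/-- `1/t = (t/y)^2 · unit` : `t/y` is a local parameter of order one at infinity -/
theorem valuation_t_div_y_sq : A.valuation (t / y) ^ 2 = A.valuation t⁻¹ := by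
  have h2 := valuation_y_sq_eq W A hk hE ht
  have hT : 1 < A.valuation t := one_lt_valuation_of_not_mem A ht
  have hT0 : A.valuation t ≠ 0 := (lt_trans zero_lt_one hT).ne'
  rw [map_div₀, div_pow, h2, map_inv₀, pow_succ (A.valuation t) 2,
    div_mul_cancel_left₀ (pow_ne_zero 2 hT0)]

end Infty

end Fermat.Agent.GE.FF.PlacesAbs
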