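/-
GATE-L-S58 / GE/E3 places, part 2 (helper95).  Quotients `u(t)/v(t)` at a place, and the residue
field of a place of `K ⊇ k(t)` (`k` algebraically closed) is `k`.
-/
import Fermat.Agent.GE.FF.PlacesAbs

set_option autoImplicit false

open Polynomial
open scoped Polynomial.Bivariate

namespace Fermat.Agent.GE.FF.PlacesAbs

variable {k : Type*} [Field k] {K : Type*} [Field K] [Algebra k K]

section Quot

variable (A : ValuationSubring K) (hk : ∀ a : k, algebraMap k K a ∈ A) {t : K} {c : k}
  (ht : t ∈ A) (htc : t - algebraMap k K c ∈ A.nonunits)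

include hk ht htc

/-- the residue of `u(t)/v(t)` at a place where `t ≡ c` and `v(c) ≠ 0` is `u(c)/v(c)` -/
theorem quot_sub_mem_nonunits (u v : k[X]) (hvc : v.eval c ≠ 0) :
    aeval t u / aeval t v - algebraMap k K (u.eval c / v.eval c) ∈ A.nonunits := by
  have hv1 : A.valuation (aeval t v) = 1 := valuation_aeval_eq_one A hk ht htc v hvc
  have hv0 : aeval t v ≠ 0 := by
    intro h0; rw [h0, map_zero] at hv1; exact zero_ne_one hv1
  set b : k := u.eval c / v.eval c with hb
  have hnum : aeval t (u - C b * v) ∈ A.nonunits := by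
    apply aeval_mem_nonunits A hk ht htc
    simp only [eval_sub, eval_mul, eval_C, hb]
    field_simp
    ring
  have heq : aeval t u / aeval t v - algebraMap k K b = aeval t (u - C b * v) / aeval t v := by
    simp only [map_sub, map_mul, aeval_C]
    field_simp
  rw [heq, A.mem_nonunits_iff, map_div₀, hv1, div_one]
  exact A.mem_nonunits_iff.mp hnum

theorem quot_mem (u v : k[X]) (hvc : v.eval c ≠ 0) : aeval t u / aeval t v ∈ A := by
  have h1 := A.nonunits_subset (quot_sub_mem_nonunits A hk ht htc u v hvc)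
  have h2 : aeval t u / aeval t v = (aeval t u / aeval t v - algebraMap k K (u.eval c / v.eval c)) +
      algebraMap k K (u.eval c / v.eval c) := by ring
  rw [h2]
  exact A.add_mem _ _ h1 (hk _)

/-- `u(t)/v(t)` (coprime) has a pole at a place where `t ≡ c` and `v(c) = 0` -/
theorem quot_not_mem (u v : k[X]) (hcop : IsCoprime u v) (hv0 : aeval t v ≠ 0)
    (hvc : v.eval c = 0) : aeval t u / aeval t v ∉ A := by
  have huc : u.eval c ≠ 0 := by
    intro h0
    obtain ⟨a, b, hab⟩ := hcop
    have := congrArg (Polynomial.eval c) hab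
    simp [h0, hvc] at this
  have hu1 : A.valuation (aeval t u) = 1 := valuation_aeval_eq_one A hk ht htc u huc
  have hvlt : A.valuation (aeval t v) < 1 :=
    A.mem_nonunits_iff.mp (aeval_mem_nonunits A hk ht htc v hvc)
  have hvpos : 0 < A.valuation (aeval t v) := by
    rw [zero_lt_iff, Ne, Valuation.zero_iff]; exact hv0
  rw [← A.valuation_le_one_iff, map_div₀, hu1, not_le]
  rw [lt_div_iff₀ hvpos, one_mul]
  exact hvlt

theorem quot_mem_iff (u v : k[X]) (hcop : IsCoprime u v) (hv0 : aeval t v ≠ 0) :
    aeval t u / aeval t v ∈ A ↔ v.eval c ≠ 0 := by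
  constructor
  · intro hmem hvc
    exact quot_not_mem A hk ht htc u v hcop hv0 hvc hmem
  · exact quot_mem A hk ht htc u v

end Quot

/-- reduce a fraction of polynomials -/
lemma exists_coprime_factorization (u v : k[X]) (hv : v ≠ 0) :
    ∃ g u1 v1 : k[X], g ≠ 0 ∧ u = g * u1 ∧ v = g * v1 ∧ IsCoprime u1 v1 := by
  classical
  have hg0 : EuclideanDomain.gcd u v ≠ 0 := by
    intro h0
    exact hv ((EuclideanDomain.gcd_eq_zero_iff.mp h0).2)
  obtain ⟨u1, hu1⟩ := EuclideanDomain.gcd_dvd_left u v
  obtain ⟨v1, hv1⟩ := EuclideanDomain.gcd_dvd_right u v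
  refine ⟨EuclideanDomain.gcd u v, u1, v1, hg0, hu1, hv1, ?_⟩
  have hb := EuclideanDomain.gcd_eq_gcd_ab u v
  refine ⟨EuclideanDomain.gcdA u v, EuclideanDomain.gcdB u v, ?_⟩
  apply mul_left_cancel₀ hg0
  calc EuclideanDomain.gcd u v * (EuclideanDomain.gcdA u v * u1 + EuclideanDomain.gcdB u v * v1)
      = (EuclideanDomain.gcd u v * u1) * EuclideanDomain.gcdA u v +
        (EuclideanDomain.gcd u v * v1) * EuclideanDomain.gcdB u v := by ring
    _ = u * EuclideanDomain.gcdA u v + v * EuclideanDomain.gcdB u v := by rw [← hu1, ← hv1]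
    _ = EuclideanDomain.gcd u v * 1 := by rw [← hb, mul_one]

section Residue

variable (A : ValuationSubring K) (hk : ∀ a : k, algebraMap k K a ∈ A) {t : K} {c : k}
  (ht : t ∈ A) (htc : t - algebraMap k K c ∈ A.nonunits) (htr : Transcendental k t)

include hk ht htc htr

omit hk ht htc in
lemma aeval_ne_zero_of_transcendental {p : k[X]} (hp : p ≠ 0) : aeval t p ≠ 0 :=
  fun h => htr ⟨p, hp, h⟩

/-- residue of an element of `k(t) ∩ A` -/
theorem exists_residue_quot (u v : k[X]) (hv : v ≠ 0) (hmem : aeval t u / aeval t v ∈ A) :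
    ∃ b : k, aeval t u / aeval t v - algebraMap k K b ∈ A.nonunits := by
  obtain ⟨g, u1, v1, hg0, rfl, rfl, hcop⟩ := exists_coprime_factorization u v hv
  have hv10 : v1 ≠ 0 := by
    rintro rfl; rw [mul_zero] at hv; exact hv rfl
  have hgt : aeval t g ≠ 0 := aeval_ne_zero_of_transcendental htr hg0
  have hv1t : aeval t v1 ≠ 0 := aeval_ne_zero_of_transcendental htr hv10
  have hratio : aeval t (g * u1) / aeval t (g * v1) = aeval t u1 / aeval t v1 := by
    rw [map_mul, map_mul, mul_div_mul_left _ _ hgt]
  rw [hratio] at hmem ⊢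
  have hvc : v1.eval c ≠ 0 := (quot_mem_iff A hk ht htc u1 v1 hcop hv1t).mp hmem
  exact ⟨_, quot_sub_mem_nonunits A hk ht htc u1 v1 hvc⟩

omit hk ht htc htr in
/-- a product of units of the form `a - r` is a unit -/
lemma valuation_prod_sub_eq_one (a : K) (s : Multiset k)
    (h : ∀ r ∈ s, A.valuation (a - algebraMap k K r) = 1) :
    A.valuation ((s.map fun r => a - algebraMap k K r).prod) = 1 := by
  induction s using Multiset.induction_on with
  | empty => simp
  | cons r s ih =>
    rw [Multiset.map_cons, Multiset.prod_cons, map_mul, h r (Multiset.mem_cons_self r s),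
      one_mul]
    exact ih fun r' hr' => h r' (Multiset.mem_cons_of_mem hr')

/-- **Residue field = `k`** (`k` algebraically closed): an element of `A` which is algebraic over
`k(t)` (witnessed by a nonzero `F ∈ k[X][Y]` with `F(t, a) = 0`) is congruent to a constant. -/
theorem exists_residue [IsAlgClosed k] (a : K) (ha : a ∈ A) (F : k[X][Y]) (hF : F ≠ 0)
    (hFa : F.eval₂ ((aeval t : k[X] →ₐ[k] K) : k[X] →+* K) a = 0) :
    ∃ b : k, a - algebraMap k K b ∈ A.nonunits := by
  classical
  -- the coefficients in `K`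
  set w : ℕ → K := fun i => aeval t (F.coeff i) with hw
  have hw0 : ∀ i ∈ F.support, w i ≠ 0 := fun i hi =>
    aeval_ne_zero_of_transcendental htr (Polynomial.mem_support_iff.mp hi)
  have hne : F.support.Nonempty := Polynomial.nonempty_support_iff.mpr hF
  obtain ⟨i0, hi0, hmax⟩ := Finset.exists_max_image F.support (fun i => A.valuation (w i)) hne
  have hwi0 : w i0 ≠ 0 := hw0 i0 hi0
  have hvi0 : 0 < A.valuation (w i0) := by
    rw [zero_lt_iff, Ne, Valuation.zero_iff]; exact hwi0
  -- ratios lie in `A`
  have hr_mem : ∀ i ∈ F.support, w i / w i0 ∈ A := by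
    intro i hi
    rw [← A.valuation_le_one_iff, map_div₀, div_le_one₀ hvi0]
    exact hmax i hi
  -- their residues
  have hres : ∀ i ∈ F.support, ∃ b : k, w i / w i0 - algebraMap k K b ∈ A.nonunits := by
    intro i hi
    exact exists_residue_quot A hk ht htc htr (F.coeff i) (F.coeff i0)
      (Polynomial.mem_support_iff.mp hi0) (hr_mem i hi)
  choose! b hb using hres
  -- the reduced polynomial
  set gbar : k[X] := ∑ i ∈ F.support, C (b i) * X ^ i with hgbar
  have hb0 : b i0 ≠ 0 := by
    intro h0
    have h1 := hb i0 hi0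
    rw [h0, map_zero, sub_zero, div_self hwi0] at h1
    have := A.mem_nonunits_iff.mp h1
    rw [map_one] at this
    exact lt_irrefl _ this
  have hgcoeff : gbar.coeff i0 = b i0 := by
    rw [hgbar, Polynomial.finsetSum_coeff]
    simp only [coeff_C_mul, coeff_X_pow]
    rw [Finset.sum_eq_single i0]
    · simp
    · intro j _ hj; simp [Ne.symm hj]
    · intro h; exact absurd hi0 h
  have hg0 : gbar ≠ 0 := by
    intro h; rw [h, coeff_zero] at hgcoeff; exact hb0 hgcoeff.symm
  -- `gbar(a)` is a nonunit
  have hsum0 : ∑ i ∈ F.support, w i / w i0 * a ^ i = 0 := by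
    have h1 : F.eval₂ ((aeval t : k[X] →ₐ[k] K) : k[X] →+* K) a = ∑ i ∈ F.support, w i * a ^ i := by
      rw [Polynomial.eval₂_eq_sum, Polynomial.sum_def]
      rfl
    rw [h1] at hFa
    have h2 : ∑ i ∈ F.support, w i / w i0 * a ^ i = (∑ i ∈ F.support, w i * a ^ i) / w i0 := by
      rw [Finset.sum_div]
      apply Finset.sum_congr rfl
      intro i _
      ring
    rw [h2, hFa, zero_div]
  have hga : aeval a gbar = ∑ i ∈ F.support, (algebraMap k K (b i) - w i / w i0) * a ^ i := by
    have h1 : aeval a gbar = ∑ i ∈ F.support, algebraMap k K (b i) * a ^ i := by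
      rw [hgbar, map_sum]
      apply Finset.sum_congr rfl
      intro i _
      simp
    rw [h1, ← sub_zero (∑ i ∈ F.support, algebraMap k K (b i) * a ^ i), ← hsum0,
      ← Finset.sum_sub_distrib]
    apply Finset.sum_congr rfl
    intro i _
    ring
  have hlt : A.valuation (aeval a gbar) < 1 := by
    rw [hga]
    apply Valuation.map_sum_lt _ one_ne_zero
    intro i hi
    rw [map_mul]
    have h1 : A.valuation (algebraMap k K (b i) - w i / w i0) < 1 := by
      have := A.mem_nonunits_iff.mp (hb i hi)
      rwa [← Valuation.map_neg, neg_sub] at this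
    have h2 : A.valuation (a ^ i) ≤ 1 := by
      rw [map_pow]; exact pow_le_one₀ zero_le ((A.valuation_le_one_iff _).mpr ha)
    calc _ ≤ A.valuation (algebraMap k K (b i) - w i / w i0) * 1 := by gcongr
      _ = _ := mul_one _
      _ < 1 := h1
  -- split `gbar`
  have hsplit := (IsAlgClosed.splits gbar).eq_prod_roots
  have hga2 : aeval a gbar = algebraMap k K gbar.leadingCoeff *
      (gbar.roots.map fun r => a - algebraMap k K r).prod := by
    conv_lhs => rw [hsplit]
    rw [map_mul, aeval_C, map_multiset_prod, Multiset.map_map]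
    congr 2
    apply Multiset.map_congr rfl
    intro r _
    simp
  by_contra hcon
  push Not at hcon
  have hall : ∀ r ∈ gbar.roots, A.valuation (a - algebraMap k K r) = 1 := by
    intro r _
    have h1 : A.valuation (a - algebraMap k K r) ≤ 1 :=
      (A.valuation_le_one_iff _).mpr (sub_mem ha (hk r))
    have h2 : ¬ A.valuation (a - algebraMap k K r) < 1 := fun h =>
      hcon r (A.mem_nonunits_iff.mpr h)
    exact le_antisymm h1 (not_lt.mp h2)
  have h1 := valuation_prod_sub_eq_one A a gbar.roots hall
  have h2 := valuation_algebraMap_eq_one A hk (leadingCoeff_ne_zero.mpr hg0)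
  rw [hga2, map_mul, h1, h2, one_mul] at hlt
  exact lt_irrefl _ hlt

end Residue

end Fermat.Agent.GE.FF.PlacesAbs
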