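import Fermat.Agent.GE.FF.Field

/-!
# GE / E3, file 2: the generic point, the anti-invariant subgroup `Gamma`, Frobenius

* `P0` : the generic point `(tK, y0)` of `W` over `K = K W k`;
* `iotaPt` : the action of the hyperelliptic involution on points; `iotaPt P0 = -P0`;
* `Gamma` : the subgroup `{R | iotaPt R = -R}`; it contains `P0`, its affine points have
  `x`-coordinate in `k(t)`, it is stable under every endomorphism of `K` commuting with `iota`
  (e.g. Frobenius), and its constant points are 2-torsion.
-/

set_option autoImplicit false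

namespace Fermat.Agent.GE.FF

open Polynomial WeierstrassCurve WeierstrassCurve.Affine

universe u v

variable {F0 : Type u} [Field F0] (W : Affine F0) (k : Type v) [Field k] [Algebra F0 k]

/-- `iota` as an `F0`-algebra endomorphism of `K` -/
noncomputable def iotaF0 : K W k →ₐ[F0] K W k where
  toRingHom := (iotaHom W k : K W k →+* K W k)
  commutes' a := by
    show iotaHom W k (algebraMap F0 (K W k) a) = algebraMap F0 (K W k) a
    rw [algebraMap_F0, AlgHom.commutes]

@[simp] theorem iotaF0_apply (z : K W k) : iotaF0 W k z = iota W k z := rfl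

/-- the action of the hyperelliptic involution on points -/
noncomputable def iotaPt : (W⁄(K W k)).Point →+ (W⁄(K W k)).Point :=
  Point.map (W' := W) (iotaF0 W k)

variable [W.IsElliptic]

/-- **the generic point** -/
noncomputable def P0 : (W⁄(K W k)).Point := Point.some _ _ (nonsingular_gen W k)

theorem iotaPt_P0 : iotaPt W k (P0 W k) = - P0 W k := by
  unfold iotaPt P0
  rw [Point.map_some, Point.neg_some]
  congr 1
  · exact iota_tK W k
  · rw [iotaF0_apply, iota_y0, y0bar_eq_negY]

/-- **the subgroup of anti-invariant points** -/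
noncomputable def Gamma : AddSubgroup (W⁄(K W k)).Point where
  carrier := {R | iotaPt W k R = -R}
  zero_mem' := by simp
  add_mem' := by
    intro a b ha hb
    simp only [Set.mem_ofPred_eq] at ha hb ⊢
    rw [map_add, ha, hb, neg_add]
  neg_mem' := by
    intro a ha
    simp only [Set.mem_ofPred_eq] at ha ⊢
    rw [map_neg, ha]

omit [W.IsElliptic] in
theorem mem_Gamma (R : (W⁄(K W k)).Point) : R ∈ Gamma W k ↔ iotaPt W k R = -R := Iff.rfl

theorem P0_mem_Gamma : P0 W k ∈ Gamma W k := iotaPt_P0 W k

/-- affine points of `Gamma` have their `x`-coordinate in `k(t)` -/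
theorem x_mem_range_of_mem_Gamma {x y : K W k} (h : (W⁄(K W k)).Nonsingular x y)
    (hR : Point.some x y h ∈ Gamma W k) :
    ∃ r : RatFunc k, algebraMap (RatFunc k) (K W k) r = x := by
  rw [mem_Gamma] at hR
  unfold iotaPt at hR
  rw [Point.map_some, Point.neg_some] at hR
  have hx : iota W k x = x := (Point.some.inj hR).1
  exact (fixed_iff W k x).1 hx

omit [W.IsElliptic] in
/-- `Gamma` is stable under endomorphisms commuting with `iota` -/
theorem map_mem_Gamma (f : K W k →ₐ[F0] K W k) (hf : ∀ z, iota W k (f z) = f (iota W k z))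
    {R : (W⁄(K W k)).Point} (hR : R ∈ Gamma W k) : Point.map (W' := W) f R ∈ Gamma W k := by
  rw [mem_Gamma] at hR ⊢
  unfold iotaPt at hR ⊢
  have hcomm : (iotaF0 W k).comp f = f.comp (iotaF0 W k) := by
    ext z
    simp only [AlgHom.comp_apply, iotaF0_apply]
    exact hf z
  rw [Point.map_map, hcomm, ← Point.map_map, hR, map_neg]

variable [DecidableEq k]

/-- constant points -/
noncomputable def constPt : (W⁄k).Point →+ (W⁄(K W k)).Point :=
  Point.map (W' := W) (IsScalarTower.toAlgHom F0 k (K W k))

omit [W.IsElliptic] in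
theorem constPt_injective : Function.Injective (constPt W k) := Point.map_injective _

omit [W.IsElliptic] in
theorem iotaPt_constPt (T : (W⁄k).Point) : iotaPt W k (constPt W k T) = constPt W k T := by
  unfold iotaPt constPt
  have h : (iotaF0 W k).comp (IsScalarTower.toAlgHom F0 k (K W k)) =
      IsScalarTower.toAlgHom F0 k (K W k) := by
    ext a
    show iota W k (algebraMap k (K W k) a) = algebraMap k (K W k) a
    rw [IsScalarTower.algebraMap_apply k (RatFunc k) (K W k)]
    exact (iota W k).commutes _
  rw [Point.map_map, h]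

omit [W.IsElliptic] in
/-- a constant point of `Gamma` is 2-torsion -/
theorem two_nsmul_eq_zero_of_const {T : (W⁄k).Point} (h : constPt W k T ∈ Gamma W k) :
    2 • T = 0 := by
  rw [mem_Gamma, iotaPt_constPt] at h
  apply constPt_injective W k
  rw [map_nsmul, map_zero, two_nsmul]
  nth_rewrite 1 [h]
  exact neg_add_cancel _

section Frob

variable (l : ℕ) [Fact l.Prime] (V : Affine (ZMod l)) (κ : Type v) [Field κ] [Algebra (ZMod l) κ]

instance charP_K : CharP (K V κ) l :=
  charP_of_injective_algebraMap (algebraMap (ZMod l) (K V κ)).injective l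

/-- the `l`-Frobenius of `K` as a `ZMod l`-algebra endomorphism -/
noncomputable def frobK : K V κ →ₐ[ZMod l] K V κ where
  toRingHom := frobenius (K V κ) l
  commutes' a := by
    show (algebraMap (ZMod l) (K V κ) a) ^ l = algebraMap (ZMod l) (K V κ) a
    rw [← map_pow, ZMod.pow_card]

@[simp] theorem frobK_apply (z : K V κ) : frobK l V κ z = z ^ l := rfl

theorem frobK_pow_apply (j : ℕ) (z : K V κ) : (frobK l V κ ^ j) z = z ^ l ^ j := by
  induction j generalizing z with
  | zero => simp
  | succ n ih =>
    rw [pow_succ, AlgHom.mul_apply, frobK_apply, ih, ← pow_mul, pow_succ, mul_comm]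

theorem iota_frobK_pow (j : ℕ) (z : K V κ) :
    iota V κ ((frobK l V κ ^ j) z) = (frobK l V κ ^ j) (iota V κ z) := by
  rw [frobK_pow_apply, frobK_pow_apply, map_pow]

/-- `Gamma` is stable under Frobenius -/
theorem frobK_pow_mem_Gamma (j : ℕ) {R : (V⁄(K V κ)).Point} (hR : R ∈ Gamma V κ) :
    Point.map (W' := V) (frobK l V κ ^ j) R ∈ Gamma V κ :=
  map_mem_Gamma V κ _ (iota_frobK_pow l V κ j) hR

end Frob

end Fermat.Agent.GE.FF
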