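/-
GATE-L / S58 (EC-FROB node E5a): the quadratic form `d` = `x`-degree on helper70's group `Gamma W k`
of anti-invariant points of `W` over the function field `K W k = k(t)[y]/(Weierstrass)`.

Glue between `GE/Parallelogram.lean`, `GE/RatFuncDeg.lean` and `GE/FF/Field.lean`, `GE/FF/Gamma.lean`:
* `dG W k R : ℕ` the degree of the rational function `x(R) ∈ k(t)`;
* `dG_add_add_dG_sub` : the EXACT parallelogram law on `Gamma W k`;
* `dG_zero`, `dG_neg`, `dG_P0 = 1`;
* `dG_map_frobK_pow` : `d(φ^j R) = l^j · d R`;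
* `two_nsmul_eq_zero_of_dG_eq_zero` : `d R = 0 ⟹ 2 • R = 0` for `R ∈ Gamma` (`k` algebraically
  closed).
-/
import Mathlib
import Fermat.Agent.GE.Parallelogram
import Fermat.Agent.GE.RatFuncDeg
import Fermat.Agent.GE.FF.Gamma

set_option autoImplicit false

namespace Fermat.Agent.GE.FF.GammaDeg

open Polynomial WeierstrassCurve WeierstrassCurve.Affine
open Fermat.Agent.GE.RatHeight Fermat.Agent.GE.Parallelogram Fermat.Agent.GE.RatFuncDeg
open Fermat.Agent.GE.FF

universe u v

variable {F0 : Type u} [Field F0] (W : Affine F0) (k : Type v) [Field k] [Algebra F0 k]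

/-- the inclusion `k(t) → K` -/
noncomputable abbrev φK : RatFunc k →+* K W k := algebraMap (RatFunc k) (K W k)

/-- the `x`-degree of a point of `W` over `K W k` -/
noncomputable def dG (R : (W⁄(K W k)).Point) : ℕ := xdeg k (φK W k) R

theorem cK_eq_algebraMap : cK k (RatFunc k) = algebraMap k (RatFunc k) := by
  ext a
  simp [cK, RatFunc.algebraMap_eq_C]

/-- the base change to `K W k` is the base change of the curve over the constants `k` -/
theorem baseChange_eq_map :
    (W⁄(K W k) : WeierstrassCurve (K W k)) =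
      (W⁄k : WeierstrassCurve k).map ((φK W k).comp (cK k (RatFunc k))) := by
  rw [cK_eq_algebraMap]
  exact (WeierstrassCurve.map_map W (algebraMap F0 k)
    ((φK W k).comp (algebraMap k (RatFunc k)))).symm

variable [W.IsElliptic]

theorem xRat_of_mem_Gamma {R : (W⁄(K W k)).Point} (hR : R ∈ Gamma W k) : XRat (φK W k) R := by
  rcases R with _ | ⟨x, y, h⟩
  · exact xRat_zero _
  · rw [xRat_some_iff]
    exact x_mem_range_of_mem_Gamma W k h hR

/-- **The exact parallelogram law on `Gamma`.** -/
theorem dG_add_add_dG_sub {P Q : (W⁄(K W k)).Point} (hP : P ∈ Gamma W k) (hQ : Q ∈ Gamma W k) :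
    dG W k (P + Q) + dG W k (P - Q) = 2 * dG W k P + 2 * dG W k Q :=
  xdeg_add_add_xdeg_sub (k := k) (K := RatFunc k) (W⁄k : WeierstrassCurve k) (φK W k)
    (baseChange_eq_map W k) (xRat_of_mem_Gamma W k hP) (xRat_of_mem_Gamma W k hQ)
    (xRat_of_mem_Gamma W k ((Gamma W k).add_mem hP hQ))
    (xRat_of_mem_Gamma W k ((Gamma W k).sub_mem hP hQ))

omit [W.IsElliptic] in
theorem dG_zero : dG W k 0 = 0 := xdeg_zero _

omit [W.IsElliptic] in
theorem dG_neg (R : (W⁄(K W k)).Point) : dG W k (-R) = dG W k R := xdeg_neg _ R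

omit [W.IsElliptic] in
theorem dG_some {x y : K W k} (h : (W⁄(K W k)).Nonsingular x y) {r : RatFunc k}
    (hr : algebraMap (RatFunc k) (K W k) r = x) :
    dG W k (Point.some x y h) = rdeg k r := xdeg_some _ h hr

theorem dG_P0 : dG W k (P0 W k) = 1 := by
  unfold P0
  rw [dG_some W k (nonsingular_gen W k) (r := RatFunc.X) rfl, rdeg_ratFunc]
  simp

/-! ### Frobenius multiplies the degree by `l` -/

section Frob

variable (l : ℕ) [Fact l.Prime] (V : Affine (ZMod l)) (κ : Type v) [Field κ] [Algebra (ZMod l) κ]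

theorem dG_map_frobK_pow [V.IsElliptic] (j : ℕ) {R : (V⁄(K V κ)).Point} (hR : R ∈ Gamma V κ) :
    dG V κ (Point.map (W' := V) (frobK l V κ ^ j) R) = l ^ j * dG V κ R := by
  rcases R with _ | ⟨x, y, h⟩
  · show dG V κ (Point.map (W' := V) (frobK l V κ ^ j) 0) = l ^ j * dG V κ 0
    rw [map_zero, dG_zero, mul_zero]
  · obtain ⟨r, hr⟩ := x_mem_range_of_mem_Gamma V κ h hR
    rw [Point.map_some, dG_some V κ h hr,
      dG_some V κ _ (r := r ^ l ^ j) (by rw [map_pow, hr, frobK_pow_apply]), rdeg_pow]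

end Frob

/-! ### Degree zero implies 2-torsion -/

section Const

variable [IsAlgClosed k] [DecidableEq k]

omit [W.IsElliptic] [DecidableEq k] in
/-- an element of `K W k` that is algebraic over the algebraically closed field `k` is constant -/
theorem exists_algebraMap_eq_of_isIntegral {z : K W k} (hz : IsIntegral k z) :
    ∃ c : k, algebraMap k (K W k) c = z := by
  have h1 : (minpoly k z).degree = 1 :=
    IsAlgClosed.degree_eq_one_of_irreducible k (minpoly.irreducible hz)
  exact minpoly.mem_range_of_degree_eq_one k z h1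

/-- **Anisotropy**: a point of `Gamma` of `x`-degree `0` is `2`-torsion. -/
theorem two_nsmul_eq_zero_of_dG_eq_zero {R : (W⁄(K W k)).Point} (hR : R ∈ Gamma W k)
    (h0 : dG W k R = 0) : 2 • R = 0 := by
  rcases R with _ | ⟨x, y, h⟩
  · exact smul_zero 2
  · obtain ⟨r, hr⟩ := x_mem_range_of_mem_Gamma W k h hR
    rw [dG_some W k h hr, rdeg_eq_zero_iff] at h0
    obtain ⟨c, hc⟩ := h0
    rw [cK_eq_algebraMap] at hc
    have hx : x = algebraMap k (K W k) c := by
      rw [← hr, hc, ← IsScalarTower.algebraMap_apply]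
    subst hx
    -- `y` is integral over `k`
    have hy : IsIntegral k y := by
      have hE := h.1
      rw [equation_iff] at hE
      simp only [baseChange_a₁, baseChange_a₂, baseChange_a₃, baseChange_a₄, baseChange_a₆,
        IsScalarTower.algebraMap_apply F0 k (K W k)] at hE
      refine ⟨X ^ 2 + C (algebraMap F0 k W.a₁ * c + algebraMap F0 k W.a₃) * X -
        C (c ^ 3 + algebraMap F0 k W.a₂ * c ^ 2 + algebraMap F0 k W.a₄ * c +
          algebraMap F0 k W.a₆), ?_, ?_⟩
      · have hdeg : (C (algebraMap F0 k W.a₁ * c + algebraMap F0 k W.a₃) * X -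
            C (c ^ 3 + algebraMap F0 k W.a₂ * c ^ 2 + algebraMap F0 k W.a₄ * c +
              algebraMap F0 k W.a₆) : k[X]).degree < 2 := by
          refine lt_of_le_of_lt (degree_sub_le _ _) (max_lt ?_ ?_)
          · exact lt_of_le_of_lt (degree_C_mul_X_le _) (by norm_num)
          · exact lt_of_le_of_lt degree_C_le (by norm_num)
        rw [add_sub_assoc]
        exact monic_X_pow_add hdeg
      · simp only [eval₂_sub, eval₂_add, eval₂_mul, eval₂_pow, eval₂_X, eval₂_C, map_add, map_mul,
          map_pow]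
        linear_combination hE
    obtain ⟨y₁, rfl⟩ := exists_algebraMap_eq_of_isIntegral W k hy
    -- the constant point
    have hT : (W⁄k).Nonsingular c y₁ :=
      (W.baseChange_nonsingular (A := k) (B := K W k)
        (f := IsScalarTower.toAlgHom F0 k (K W k)) (algebraMap k (K W k)).injective c y₁).mp h
    have hconst : constPt W k (Point.some c y₁ hT) = Point.some _ _ h := rfl
    have h2 := two_nsmul_eq_zero_of_const W k (T := Point.some c y₁ hT) (by rw [hconst]; exact hR)
    rw [← hconst, ← map_nsmul, h2, map_zero]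

end Const

/-! ### The package on the type `Gamma`, in the shape of `FrobFinal.frob_quadratic_of_gates` -/

section Package

/-- the `ℤ`-valued `x`-degree on the group `Gamma` -/
noncomputable def dΓ (R : Gamma W k) : ℤ := (dG W k R.1 : ℤ)

theorem dΓ_par (a b : Gamma W k) :
    dΓ W k (a + b) + dΓ W k (a - b) = 2 * dΓ W k a + 2 * dΓ W k b := by
  unfold dΓ
  have h := dG_add_add_dG_sub W k a.2 b.2
  push_cast [AddSubgroup.coe_add, AddSubgroup.coe_sub]
  exact_mod_cast h

/-- the generic point as an element of `Gamma` -/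
noncomputable def P0Γ : Gamma W k := ⟨P0 W k, P0_mem_Gamma W k⟩

theorem dΓ_P0Γ : dΓ W k (P0Γ W k) = 1 := by
  unfold dΓ P0Γ
  rw [dG_P0]
  rfl

theorem dΓ_eq_zero [IsAlgClosed k] [DecidableEq k] {R : Gamma W k} (h : dΓ W k R = 0) :
    2 • R = 0 := by
  apply Subtype.ext
  rw [AddSubgroup.coe_nsmul, AddSubgroup.coe_zero]
  have h' : dG W k R.1 = 0 := by
    unfold dΓ at h
    exact_mod_cast h
  exact two_nsmul_eq_zero_of_dG_eq_zero W k R.2 h'

variable (l : ℕ) [Fact l.Prime] (V : Affine (ZMod l)) [V.IsElliptic] (κ : Type v) [Field κ]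
  [Algebra (ZMod l) κ]

/-- Frobenius on `Gamma` -/
noncomputable def frobΓ : Gamma V κ →+ Gamma V κ :=
  ((Point.map (W' := V) (frobK l V κ)).comp (Gamma V κ).subtype).codRestrict (Gamma V κ)
    (fun R => by
      have := frobK_pow_mem_Gamma l V κ 1 R.2
      rwa [pow_one] at this)

omit [V.IsElliptic] in
theorem coe_frobΓ (R : Gamma V κ) :
    ((frobΓ l V κ R : Gamma V κ) : (V⁄(K V κ)).Point) = Point.map (W' := V) (frobK l V κ) R.1 :=
  rfl

theorem dΓ_frobΓ (R : Gamma V κ) : dΓ V κ (frobΓ l V κ R) = (l : ℤ) * dΓ V κ R := by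
  unfold dΓ
  rw [coe_frobΓ]
  have h := dG_map_frobK_pow l V κ 1 R.2
  rw [pow_one, pow_one] at h
  rw [h]
  push_cast
  rfl

end Package

end Fermat.Agent.GE.FF.GammaDeg
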