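import Mathlib

/-!
# GE / E3, file 1: the function field `K = k(t)[y]/(Weierstrass)` of a Weierstrass curve

`W` is a Weierstrass curve over a field `F0` (e.g. `ZMod l`), `k` a field extension of `F0`.
`K W k := AdjoinRoot` of the Weierstrass polynomial (in `Y`) over `RatFunc k`, with
`tK` (the image of `RatFunc.X`), `y0` (the root), the generic point equation, the hyperelliptic
involution `iota : K ≃ₐ[RatFunc k] K`, `y0 ↦ -y0 - a₁ tK - a₃`, and its fixed field `k(t)`.
-/

set_option autoImplicit false

namespace Fermat.Agent.GE.FF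

open Polynomial WeierstrassCurve WeierstrassCurve.Affine
open scoped Polynomial.Bivariate

universe u v

variable {F0 : Type u} [Field F0] (W : Affine F0) (k : Type v) [Field k] [Algebra F0 k]

/-- The Weierstrass polynomial of `W` as a polynomial in `Y` over `k(t)`. -/
noncomputable def Kpoly : (RatFunc k)[X] :=
  ((W⁄k).polynomial).map (algebraMap k[X] (RatFunc k))

theorem Kpoly_monic : (Kpoly W k).Monic := monic_polynomial.map _

theorem Kpoly_irreducible : Irreducible (Kpoly W k) :=
  (monic_polynomial.irreducible_iff_irreducible_map_fraction_map).1 irreducible_polynomial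

instance : Fact (Irreducible (Kpoly W k)) := ⟨Kpoly_irreducible W k⟩

/-- coefficient of `W` in `k(t)` -/
noncomputable def cf (a : F0) : RatFunc k := algebraMap k (RatFunc k) (algebraMap F0 k a)

theorem Kpoly_eq : Kpoly W k =
    X ^ 2 + C (cf k W.a₁ * RatFunc.X + cf k W.a₃) * X -
      C (RatFunc.X ^ 3 + cf k W.a₂ * RatFunc.X ^ 2 + cf k W.a₄ * RatFunc.X + cf k W.a₆) := by
  simp only [Kpoly, polynomial, cf, Polynomial.map_add, Polynomial.map_sub, Polynomial.map_mul,
    Polynomial.map_pow, Polynomial.map_X, Polynomial.map_C, map_add, map_mul, map_pow,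
    RatFunc.algebraMap_X, RatFunc.algebraMap_C, baseChange_a₁, baseChange_a₂, baseChange_a₃,
    baseChange_a₄, baseChange_a₆]
  rfl

/-- The function field `k(t)[y]/(Weierstrass)`. -/
def K : Type v := AdjoinRoot (Kpoly W k)

noncomputable instance : Field (K W k) := inferInstanceAs (Field (AdjoinRoot (Kpoly W k)))

noncomputable instance : DecidableEq (K W k) := Classical.decEq _

noncomputable instance : Algebra (RatFunc k) (K W k) :=
  inferInstanceAs (Algebra (RatFunc k) (AdjoinRoot (Kpoly W k)))

noncomputable instance algk : Algebra k (K W k) :=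
  ((algebraMap (RatFunc k) (K W k)).comp (algebraMap k (RatFunc k))).toAlgebra

instance : IsScalarTower k (RatFunc k) (K W k) := IsScalarTower.of_algebraMap_eq (fun _ => rfl)

noncomputable instance algF0 : Algebra F0 (K W k) :=
  ((algebraMap k (K W k)).comp (algebraMap F0 k)).toAlgebra

instance : IsScalarTower F0 k (K W k) := IsScalarTower.of_algebraMap_eq (fun _ => rfl)

/-- the coordinate function `t` -/
noncomputable def tK : K W k := algebraMap (RatFunc k) (K W k) RatFunc.X

/-- the coordinate function `y` -/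
noncomputable def y0 : K W k := AdjoinRoot.root (Kpoly W k)

theorem algebraMap_F0 (a : F0) :
    algebraMap F0 (K W k) a = algebraMap (RatFunc k) (K W k) (cf k a) := rfl

theorem aeval_y0 : aeval (y0 W k) (Kpoly W k) = 0 := by
  have : aeval (AdjoinRoot.root (Kpoly W k)) (Kpoly W k) = 0 := by
    rw [AdjoinRoot.aeval_eq, AdjoinRoot.mk_self]
  exact this

/-- the generic point lies on the curve -/
theorem equation_gen : (W⁄(K W k)).Equation (tK W k) (y0 W k) := by
  have h := aeval_y0 W k
  rw [Kpoly_eq] at h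
  simp only [map_add, map_sub, map_mul, map_pow, aeval_X, aeval_C] at h
  rw [equation_iff]
  simp only [baseChange_a₁, baseChange_a₂, baseChange_a₃, baseChange_a₄, baseChange_a₆,
    algebraMap_F0, tK]
  linear_combination h

/-- base changes of elliptic curves are elliptic (Mathlib has the instance for `map` only) -/
instance isElliptic_baseChange (A : Type*) [CommRing A] [Algebra F0 A] [W.IsElliptic] :
    (W⁄A).IsElliptic :=
  inferInstanceAs ((W.map (algebraMap F0 A)).IsElliptic)

/-- the generic point is nonsingular -/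
theorem nonsingular_gen [W.IsElliptic] : (W⁄(K W k)).Nonsingular (tK W k) (y0 W k) :=
  equation_iff_nonsingular.1 (equation_gen W k)

theorem algebraMap_injective : Function.Injective (algebraMap (RatFunc k) (K W k)) :=
  (algebraMap (RatFunc k) (K W k)).injective

theorem transcendental_tK : Transcendental k (tK W k) := by
  unfold tK
  rw [transcendental_algebraMap_iff (algebraMap_injective W k)]
  exact RatFunc.transcendental_X

/-- the linear coefficient `a₁ t + a₃` of the Weierstrass polynomial, in `k(t)` -/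
noncomputable def linR : RatFunc k := cf k W.a₁ * RatFunc.X + cf k W.a₃

/-- the cubic `t³ + a₂t² + a₄t + a₆`, in `k(t)` -/
noncomputable def cubR : RatFunc k :=
  RatFunc.X ^ 3 + cf k W.a₂ * RatFunc.X ^ 2 + cf k W.a₄ * RatFunc.X + cf k W.a₆

theorem Kpoly_eq' : Kpoly W k = X ^ 2 + C (linR W k) * X - C (cubR W k) := Kpoly_eq W k

theorem aeval_Kpoly (z : K W k) : aeval z (Kpoly W k) =
    z ^ 2 + algebraMap (RatFunc k) (K W k) (linR W k) * z
      - algebraMap (RatFunc k) (K W k) (cubR W k) := by
  rw [Kpoly_eq']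
  simp only [map_add, map_sub, map_mul, map_pow, aeval_X, aeval_C]

theorem y0_sq : (y0 W k) ^ 2 = algebraMap (RatFunc k) (K W k) (cubR W k)
    - algebraMap (RatFunc k) (K W k) (linR W k) * y0 W k := by
  have h := aeval_y0 W k
  rw [aeval_Kpoly] at h
  linear_combination h

/-- the conjugate `-y0 - a₁ t - a₃` of `y0` -/
noncomputable def y0bar : K W k := - y0 W k - algebraMap (RatFunc k) (K W k) (linR W k)

theorem y0bar_eq_negY : y0bar W k = (W⁄(K W k)).negY (tK W k) (y0 W k) := by
  simp only [y0bar, negY, linR, baseChange_a₁, baseChange_a₃, algebraMap_F0, tK, map_add, map_mul]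
  ring

theorem aeval_y0bar : aeval (y0bar W k) (Kpoly W k) = 0 := by
  rw [aeval_Kpoly, y0bar]
  linear_combination y0_sq W k

/-- the hyperelliptic involution as an algebra endomorphism over `k(t)` -/
noncomputable def iotaHom : K W k →ₐ[RatFunc k] K W k :=
  AdjoinRoot.liftAlgHom (Kpoly W k) (Algebra.ofId (RatFunc k) (K W k)) (y0bar W k)
    (by have := aeval_y0bar W k; rw [aeval_def] at this; exact this)

theorem iotaHom_y0 : iotaHom W k (y0 W k) = y0bar W k :=
  AdjoinRoot.liftAlgHom_root (Kpoly W k) _ _ _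

theorem iotaHom_y0bar : iotaHom W k (y0bar W k) = y0 W k := by
  unfold y0bar
  rw [map_sub, map_neg, iotaHom_y0, AlgHom.commutes, y0bar]
  ring

theorem iotaHom_comp_self : (iotaHom W k).comp (iotaHom W k) = AlgHom.id (RatFunc k) (K W k) := by
  have : ∀ f g : AdjoinRoot (Kpoly W k) →ₐ[RatFunc k] K W k,
      f (AdjoinRoot.root (Kpoly W k)) = g (AdjoinRoot.root (Kpoly W k)) → f = g :=
    fun f g h => AdjoinRoot.algHom_ext h
  apply this
  show iotaHom W k (iotaHom W k (y0 W k)) = y0 W k
  rw [iotaHom_y0, iotaHom_y0bar]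

theorem iotaHom_iotaHom (z : K W k) : iotaHom W k (iotaHom W k z) = z :=
  congrArg (fun f : K W k →ₐ[RatFunc k] K W k => f z) (iotaHom_comp_self W k)

/-- **the hyperelliptic involution** `y0 ↦ -y0 - a₁ t - a₃` of `K / k(t)` -/
noncomputable def iota : K W k ≃ₐ[RatFunc k] K W k :=
  AlgEquiv.ofAlgHom (iotaHom W k) (iotaHom W k) (iotaHom_comp_self W k) (iotaHom_comp_self W k)

@[simp] theorem iota_apply (z : K W k) : iota W k z = iotaHom W k z := rfl

theorem iota_y0 : iota W k (y0 W k) = y0bar W k := iotaHom_y0 W k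

theorem iota_tK : iota W k (tK W k) = tK W k := (iota W k).commutes _

theorem iota_iota (z : K W k) : iota W k (iota W k z) = z := iotaHom_iotaHom W k z

/-- every element of `K` is `a + b y0` with `a, b ∈ k(t)` -/
theorem exists_rep (z : K W k) : ∃ a b : RatFunc k,
    z = algebraMap (RatFunc k) (K W k) a + algebraMap (RatFunc k) (K W k) b * y0 W k := by
  obtain ⟨p, rfl⟩ : ∃ p, AdjoinRoot.mk (Kpoly W k) p = z := AdjoinRoot.mk_surjective z
  have hmon := Kpoly_monic W k
  have hdeg : (p %ₘ Kpoly W k).natDegree ≤ 1 := by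
    have h2 : (Kpoly W k).natDegree = 2 := by
      rw [Kpoly, (monic_polynomial).natDegree_map, natDegree_polynomial]
    have hne : Kpoly W k ≠ 1 := by
      intro h; rw [h, natDegree_one] at h2; exact absurd h2 (by norm_num)
    have := natDegree_modByMonic_lt p hmon hne
    omega
  obtain ⟨b, a, hr⟩ := exists_eq_X_add_C_of_natDegree_le_one hdeg
  refine ⟨a, b, ?_⟩
  have h1 : AdjoinRoot.mk (Kpoly W k) p = AdjoinRoot.mk (Kpoly W k) (p %ₘ Kpoly W k) := by
    rw [AdjoinRoot.mk_eq_mk]
    rw [modByMonic_eq_sub_mul_div p (Kpoly W k)]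
    exact ⟨p /ₘ Kpoly W k, by ring⟩
  rw [h1, hr]
  simp only [map_add, map_mul, AdjoinRoot.mk_C, AdjoinRoot.mk_X]
  rw [add_comm]
  rfl

/-- `1, y0` are linearly independent over `k(t)` -/
theorem rep_eq_zero {a b : RatFunc k}
    (h : algebraMap (RatFunc k) (K W k) a + algebraMap (RatFunc k) (K W k) b * y0 W k = 0) :
    a = 0 ∧ b = 0 := by
  have h' : AdjoinRoot.mk (Kpoly W k) (C a + C b * X) = 0 := by
    simp only [map_add, map_mul, AdjoinRoot.mk_C, AdjoinRoot.mk_X]
    exact h
  rw [AdjoinRoot.mk_eq_zero] at h'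
  have h2 : (Kpoly W k).natDegree = 2 := by
    rw [Kpoly, (monic_polynomial).natDegree_map, natDegree_polynomial]
  have hz : C a + C b * X = 0 := by
    by_contra hne
    have := natDegree_le_of_dvd h' hne
    have h1 : (C a + C b * X).natDegree ≤ 1 := by
      rw [add_comm]
      exact natDegree_linear_le
    omega
  have ha : a = 0 := by
    have := congrArg (fun p => coeff p 0) hz
    simpa using this
  have hb : b = 0 := by
    have := congrArg (fun p => coeff p 1) hz
    simpa using this
  exact ⟨ha, hb⟩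

theorem linR_eq : linR W k = algebraMap k[X] (RatFunc k)
    (C (algebraMap F0 k W.a₁) * X + C (algebraMap F0 k W.a₃)) := by
  simp only [linR, cf, map_add, map_mul, RatFunc.algebraMap_X, RatFunc.algebraMap_C]
  rfl

/-- for an elliptic curve, `2 y0 + a₁ t + a₃ ≠ 0` (the extension `K / k(t)` is separable) -/
theorem two_y0_add_lin_ne_zero [W.IsElliptic] :
    2 * y0 W k + algebraMap (RatFunc k) (K W k) (linR W k) ≠ 0 := by
  intro h
  have h' : algebraMap (RatFunc k) (K W k) (linR W k)
      + algebraMap (RatFunc k) (K W k) 2 * y0 W k = 0 := by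
    rw [map_ofNat]; linear_combination h
  obtain ⟨hl, h2⟩ := rep_eq_zero W k h'
  have h2k : (2 : k) = 0 := by
    have : algebraMap k (RatFunc k) 2 = 0 := by rw [map_ofNat]; exact h2
    exact (map_eq_zero_iff _ (algebraMap k (RatFunc k)).injective).1 this
  rw [linR_eq] at hl
  have hl' : C (algebraMap F0 k W.a₁) * X + C (algebraMap F0 k W.a₃) = (0 : k[X]) :=
    (map_eq_zero_iff _ (IsFractionRing.injective k[X] (RatFunc k))).1 hl
  have ha1 : algebraMap F0 k W.a₁ = 0 := by
    have := congrArg (fun p => coeff p 1) hl'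
    simpa using this
  have ha3 : algebraMap F0 k W.a₃ = 0 := by
    have := congrArg (fun p => coeff p 0) hl'
    simpa using this
  have hΔ : (W⁄k).Δ = 0 := by
    simp only [WeierstrassCurve.Δ, WeierstrassCurve.b₂, WeierstrassCurve.b₄, WeierstrassCurve.b₆,
      WeierstrassCurve.b₈, baseChange_a₁, baseChange_a₂, baseChange_a₃, baseChange_a₄,
      baseChange_a₆, ha1, ha3]
    set a2 := algebraMap F0 k W.a₂
    set a4 := algebraMap F0 k W.a₄
    set a6 := algebraMap F0 k W.a₆
    linear_combination (-8 * a2 ^ 2 * (4 * a2 * a6 - a4 ^ 2) - 32 * a4 ^ 3 - 216 * a6 ^ 2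
      + 144 * a2 * a4 * a6) * h2k
  exact (W⁄k).isUnit_Δ.ne_zero hΔ

/-- **the fixed field of `iota` is `k(t)`** -/
theorem fixed_iff [W.IsElliptic] (z : K W k) :
    iota W k z = z ↔ ∃ r : RatFunc k, algebraMap (RatFunc k) (K W k) r = z := by
  constructor
  · intro h
    obtain ⟨a, b, rfl⟩ := exists_rep W k z
    refine ⟨a, ?_⟩
    rw [iota_apply, map_add, map_mul, AlgHom.commutes, AlgHom.commutes, iotaHom_y0, y0bar] at h
    have h0 : algebraMap (RatFunc k) (K W k) b *
        (2 * y0 W k + algebraMap (RatFunc k) (K W k) (linR W k)) = 0 := by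
      linear_combination -h
    rcases mul_eq_zero.1 h0 with hb | hb
    · rw [hb, zero_mul, add_zero]
    · exact absurd hb (two_y0_add_lin_ne_zero W k)
  · rintro ⟨r, rfl⟩
    exact (iota W k).commutes r

end Fermat.Agent.GE.FF
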